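import Mathlib

/-!
# S58 glue, block B2 (core): relation-only irreducibility transfer

(helper88.)  Abstract group-theoretic core of the verification of the hypothesis `hres` of S36.

`G` is a group, `r : G →* End_k(U)` a two-dimensional representation over a field `k` of odd
characteristic `p`, and `V` a finite `𝔽_p[G]`-module (think `V = E[p]`) which is irreducible and
has more than `p` elements.  The only link between `r` and `V` is the **relation hypothesis**
`HcRel`: for every `σ : G` there are integers `a, d` with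
`charpoly (r σ) = X² - a X + d` and `σ² - a σ + d = 0` on `V`.
If moreover `det r(c) = -1` for some involution `c`, then `r` has no stable line
(`hc_no_stable_line`, `hc_irreducible`).

No trace or determinant of the action on `V` is used, and `V` is not assumed to be "odd".
-/

set_option autoImplicit false
set_option linter.unusedSectionVars false
set_option linter.unusedVariables false
set_option linter.unnecessarySimpa false

open Polynomial

namespace Fermat.Agent.H88.S58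

section EndRel

variable {k : Type*} [Field k] {U : Type*} [AddCommGroup U] [Module k U]

/-- Cayley–Hamilton in the explicit quadratic form. -/
theorem hc_apply_of_charpoly [Module.Free k U] [Module.Finite k U] (f : Module.End k U) (a d : k)
    (h : f.charpoly = X ^ 2 - C a * X + C d) (u : U) : f (f u) - a • f u + d • u = 0 := by
  have hCH := LinearMap.aeval_self_charpoly f
  rw [h] at hCH
  have := congrArg (fun g : Module.End k U => g u) hCH
  simpa [pow_two, Algebra.smul_def, sub_eq_add_neg, Polynomial.aeval_def, Polynomial.eval₂_add,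
    Polynomial.eval₂_mul] using this

/-- The determinant is the constant coefficient of the characteristic polynomial in rank 2. -/
theorem hc_det_of_charpoly [Module.Free k U] [Module.Finite k U] (hU : Module.finrank k U = 2)
    (f : Module.End k U) (a d : k) (h : f.charpoly = X ^ 2 - C a * X + C d) :
    LinearMap.det f = d := by
  rw [LinearMap.det_eq_sign_charpoly_coeff, hU, h]
  simp [Polynomial.coeff_X]

end EndRel

/-- integer scalars on an `𝔽_p`-module only depend on the residue class -/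
theorem hc_zsmul_congr {p : ℕ} {V : Type*} [AddCommGroup V] [Module (ZMod p) V]
    (k : Type*) [Field k] [CharP k p] {a b : ℤ} (h : (a : k) = (b : k))
    (v : V) : a • v = b • v := by
  have h1 : (a : ZMod p) = (b : ZMod p) := by
    rw [ZMod.intCast_eq_intCast_iff]
    exact (CharP.intCast_eq_intCast k p).mp h
  rw [← Int.cast_smul_eq_zsmul (ZMod p) a v, ← Int.cast_smul_eq_zsmul (ZMod p) b v, h1]

theorem hc_p_smul {p : ℕ} {V : Type*} [AddCommGroup V] [Module (ZMod p) V] (v : V) :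
    (p : ℤ) • v = 0 := by
  rw [← Int.cast_smul_eq_zsmul (ZMod p) (p : ℤ) v]
  simp

/-- the group action commutes with `𝔽_p`-scalars -/
theorem hc_smul_comm {G : Type*} [Group G] {p : ℕ} {V : Type*} [AddCommGroup V]
    [Module (ZMod p) V] [DistribMulAction G V] (σ : G) (c : ZMod p) (v : V) :
    σ • (c • v) = c • σ • v :=
  ZMod.map_smul (DistribSMul.toAddMonoidHom V σ) c v

section Chi

variable {G : Type*} [Group G] {k : Type*} [Field k]
  {U : Type*} [AddCommGroup U] [Module k U] [Module.Free k U] [Module.Finite k U]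
  (r : G →* Module.End k U)

theorem hc_det_ne_zero (σ : G) : LinearMap.det (r σ) ≠ 0 := by
  intro h
  have h1 : LinearMap.det (r σ⁻¹) * LinearMap.det (r σ) = 1 := by
    rw [← map_mul, ← map_mul, inv_mul_cancel, map_one, map_one]
  rw [h, mul_zero] at h1
  exact zero_ne_one h1

/-- The eigen-character on a stable line `k w₀`. -/
noncomputable def hcChi (w₀ : U) (heig : ∀ σ : G, ∃ χ : k, r σ w₀ = χ • w₀) (σ : G) : k :=
  Classical.choose (heig σ)

theorem hcChi_spec (w₀ : U) (heig : ∀ σ : G, ∃ χ : k, r σ w₀ = χ • w₀) (σ : G) :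
    r σ w₀ = hcChi r w₀ heig σ • w₀ :=
  Classical.choose_spec (heig σ)

theorem hcChi_mul (w₀ : U) (hw₀ : w₀ ≠ 0) (heig : ∀ σ : G, ∃ χ : k, r σ w₀ = χ • w₀)
    (σ τ : G) : hcChi r w₀ heig (σ * τ) = hcChi r w₀ heig σ * hcChi r w₀ heig τ := by
  apply smul_left_injective k hw₀
  show hcChi r w₀ heig (σ * τ) • w₀ = (hcChi r w₀ heig σ * hcChi r w₀ heig τ) • w₀
  rw [← hcChi_spec, map_mul, Module.End.mul_apply, hcChi_spec r w₀ heig τ, map_smul,
    hcChi_spec r w₀ heig σ, smul_smul, mul_comm]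

theorem hcChi_one (w₀ : U) (hw₀ : w₀ ≠ 0) (heig : ∀ σ : G, ∃ χ : k, r σ w₀ = χ • w₀) :
    hcChi r w₀ heig 1 = 1 := by
  apply smul_left_injective k hw₀
  show hcChi r w₀ heig 1 • w₀ = (1 : k) • w₀
  rw [← hcChi_spec, map_one, Module.End.one_apply, one_smul]

/-- The pair (eigen-character, determinant) as a monoid homomorphism. -/
noncomputable def hcPhi (w₀ : U) (hw₀ : w₀ ≠ 0) (heig : ∀ σ : G, ∃ χ : k, r σ w₀ = χ • w₀) :
    G →* k × k where
  toFun σ := (hcChi r w₀ heig σ, LinearMap.det (r σ))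
  map_one' := by
    ext
    · exact hcChi_one r w₀ hw₀ heig
    · simp
  map_mul' σ τ := by
    ext
    · exact hcChi_mul r w₀ hw₀ heig σ τ
    · simp

/-- The subgroup `H = ker χ ∩ ker det`. -/
noncomputable def hcH (w₀ : U) (hw₀ : w₀ ≠ 0) (heig : ∀ σ : G, ∃ χ : k, r σ w₀ = χ • w₀) :
    Subgroup G :=
  (hcPhi r w₀ hw₀ heig).ker

theorem mem_hcH (w₀ : U) (hw₀ : w₀ ≠ 0) (heig : ∀ σ : G, ∃ χ : k, r σ w₀ = χ • w₀) (σ : G) :
    σ ∈ hcH r w₀ hw₀ heig ↔ hcChi r w₀ heig σ = 1 ∧ LinearMap.det (r σ) = 1 := by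
  rw [hcH, MonoidHom.mem_ker]
  show ((hcChi r w₀ heig σ, LinearMap.det (r σ)) : k × k) = 1 ↔ _
  rw [Prod.ext_iff]
  rfl

theorem hcH_conj (w₀ : U) (hw₀ : w₀ ≠ 0) (heig : ∀ σ : G, ∃ χ : k, r σ w₀ = χ • w₀)
    (σ τ : G) (hσ : σ ∈ hcH r w₀ hw₀ heig) : τ⁻¹ * σ * τ ∈ hcH r w₀ hw₀ heig := by
  rw [hcH, MonoidHom.mem_ker] at hσ ⊢
  rw [map_mul, map_mul, hσ, mul_one, ← map_mul, inv_mul_cancel, map_one]

theorem hcH_comm (w₀ : U) (hw₀ : w₀ ≠ 0) (heig : ∀ σ : G, ∃ χ : k, r σ w₀ = χ • w₀)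
    (σ τ : G) : σ * τ * σ⁻¹ * τ⁻¹ ∈ hcH r w₀ hw₀ heig := by
  rw [hcH, MonoidHom.mem_ker]
  have h1 : hcPhi r w₀ hw₀ heig σ * hcPhi r w₀ hw₀ heig σ⁻¹ = 1 := by
    rw [← map_mul, mul_inv_cancel, map_one]
  have h2 : hcPhi r w₀ hw₀ heig τ * hcPhi r w₀ hw₀ heig τ⁻¹ = 1 := by
    rw [← map_mul, mul_inv_cancel, map_one]
  rw [map_mul, map_mul, map_mul, mul_assoc, mul_assoc, mul_left_comm (hcPhi r w₀ hw₀ heig τ),
    ← mul_assoc, h1, one_mul, h2]

end Chi

/-- The relation hypothesis linking `r` and `V`. -/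
def HcRel {G : Type*} [Group G] {k : Type*} [Field k] {U : Type*} [AddCommGroup U] [Module k U]
    [Module.Free k U] [Module.Finite k U] (r : G →* Module.End k U) (V : Type*) [AddCommGroup V] [DistribMulAction G V] : Prop :=
  ∀ σ : G, ∃ a d : ℤ, (r σ).charpoly = X ^ 2 - C (a : k) * X + C (d : k) ∧
    ∀ v : V, σ • σ • v - a • σ • v + d • v = 0

section Core

variable {G : Type*} [Group G] {k : Type*} [Field k] (p : ℕ)
  {U : Type*} [AddCommGroup U] [Module k U] [Module.Free k U] [Module.Finite k U]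
  {V : Type*} [AddCommGroup V] [hV : Module (ZMod p) V] [DistribMulAction G V]
  [hp : Fact p.Prime] [hk : CharP k p]
  (r : G →* Module.End k U)

include hp hk hV

/-- **Step B.** Elements of `H` are unipotent on `V`. -/
theorem hcH_unipotent (hU : Module.finrank k U = 2) (hrel : HcRel r V)
    (w₀ : U) (hw₀ : w₀ ≠ 0) (heig : ∀ σ : G, ∃ χ : k, r σ w₀ = χ • w₀)
    (σ : G) (hσ : σ ∈ hcH r w₀ hw₀ heig) (v : V) :
    σ • σ • v = (2 : ℤ) • σ • v - v := by
  obtain ⟨hχ, hdet⟩ := (mem_hcH r w₀ hw₀ heig σ).mp hσ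
  obtain ⟨a, d, hcp, hV⟩ := hrel σ
  have hd : ((d : ℤ) : k) = ((1 : ℤ) : k) := by
    rw [← hc_det_of_charpoly hU (r σ) (a : k) (d : k) hcp, hdet]; simp
  have ha : ((a : ℤ) : k) = ((2 : ℤ) : k) := by
    have h := hc_apply_of_charpoly (r σ) (a : k) (d : k) hcp w₀
    have hs := hcChi_spec r w₀ heig σ
    rw [hχ, one_smul] at hs
    rw [hs, hs, hd] at h
    have h' : ((1 : k) - (a : k) + 1) • w₀ = 0 := by
      rw [add_smul, sub_smul, one_smul]
      simpa using h
    have h0 : (1 : k) - (a : k) + 1 = 0 := by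
      rcases smul_eq_zero.mp h' with h0 | h0
      · exact h0
      · exact absurd h0 hw₀
    have : (a : k) = 2 := by linear_combination -h0
    rw [this]; simp
  have h := hV v
  rw [hc_zsmul_congr (p := p) k ha, hc_zsmul_congr (p := p) k hd, one_smul] at h
  rw [eq_sub_iff_add_eq, ← sub_eq_zero]
  rw [← h]; abel

omit hp hk hV in
/-- powers of a unipotent element -/
theorem hc_pow_smul_of_unipotent (σ : G) (h : ∀ v : V, σ • σ • v = (2 : ℤ) • σ • v - v)
    (j : ℕ) (v : V) : σ ^ j • v = v + (j : ℤ) • (σ • v - v) := by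
  induction j with
  | zero => simp
  | succ j ih =>
    rw [pow_succ', mul_smul, ih, smul_add, smul_comm σ (j : ℤ), smul_sub, h v]
    push_cast
    rw [add_smul, one_smul, two_smul]
    abel_nf

/-- **Step C.** Elements of `H` have order dividing `p` on `V`. -/
theorem hcH_pow_p (hU : Module.finrank k U = 2) (hrel : HcRel r V)
    (w₀ : U) (hw₀ : w₀ ≠ 0) (heig : ∀ σ : G, ∃ χ : k, r σ w₀ = χ • w₀)
    (σ : G) (hσ : σ ∈ hcH r w₀ hw₀ heig) (v : V) : σ ^ p • v = v := by
  rw [hc_pow_smul_of_unipotent σ (hcH_unipotent p r hU hrel w₀ hw₀ heig σ hσ) p v,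
    hc_p_smul, add_zero]

omit hk in
/-- `p` divides the cardinality of `V` as soon as `V` has more than one element. -/
theorem hc_p_dvd_card [Finite V] (hcard : 1 < Nat.card V) : p ∣ Nat.card V := by
  have h := Module.natCard_eq_pow_finrank (K := ZMod p) (V := V)
  rw [Nat.card_zmod] at h
  have hne : Module.finrank (ZMod p) V ≠ 0 := by
    intro h0
    rw [h0, pow_zero] at h
    omega
  rw [h]
  exact dvd_pow_self p hne

/-- **Step D.** `H` has a nonzero fixed vector. -/
theorem hcH_exists_fixed [Finite V] (hU : Module.finrank k U = 2) (hrel : HcRel r V)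
    (hcard : 1 < Nat.card V)
    (w₀ : U) (hw₀ : w₀ ≠ 0) (heig : ∀ σ : G, ∃ χ : k, r σ w₀ = χ • w₀) :
    ∃ v : V, v ≠ 0 ∧ ∀ σ ∈ hcH r w₀ hw₀ heig, σ • v = v := by
  classical
  set P : Subgroup (Equiv.Perm V) := (hcH r w₀ hw₀ heig).map (MulAction.toPermHom G V) with hP
  have hPp : IsPGroup p P := by
    rintro ⟨g, hg⟩
    obtain ⟨σ, hσ, rfl⟩ := Subgroup.mem_map.mp hg
    refine ⟨1, ?_⟩
    apply Subtype.ext
    rw [pow_one]
    show (MulAction.toPermHom G V σ) ^ p = 1
    rw [← map_pow]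
    ext v
    exact hcH_pow_p p r hU hrel w₀ hw₀ heig σ hσ v
  have hmod := hPp.card_modEq_card_fixedPoints V
  have hpV := hc_p_dvd_card p (V := V) hcard
  have hpF : p ∣ Nat.card (MulAction.fixedPoints P V) :=
    (Nat.modEq_zero_iff_dvd.mp (hmod.symm.trans (Nat.modEq_zero_iff_dvd.mpr hpV)))
  have h0 : (0 : V) ∈ MulAction.fixedPoints P V := by
    rintro ⟨g, hg⟩
    obtain ⟨σ, hσ, rfl⟩ := Subgroup.mem_map.mp hg
    show σ • (0 : V) = 0
    exact smul_zero σ
  by_contra hcon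
  push Not at hcon
  -- then the only fixed point is `0`
  have hall : ∀ v : V, v ∈ MulAction.fixedPoints P V → v = 0 := by
    intro v hv
    by_contra hv0
    obtain ⟨σ, hσ, hne⟩ := hcon v hv0
    apply hne
    have := hv ⟨MulAction.toPermHom G V σ, Subgroup.mem_map.mpr ⟨σ, hσ, rfl⟩⟩
    exact this
  have hsub : Subsingleton (MulAction.fixedPoints P V) :=
    ⟨fun x y => Subtype.ext ((hall x x.2).trans (hall y y.2).symm)⟩
  have hne : Nonempty (MulAction.fixedPoints P V) := ⟨⟨0, h0⟩⟩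
  have hcard1 : Nat.card (MulAction.fixedPoints P V) = 1 := Nat.card_unique
  rw [hcard1] at hpF
  exact hp.out.one_lt.ne' (Nat.dvd_one.mp hpF)

omit hk in
/-- The invariants of a subgroup, as an `𝔽_p`-submodule. -/
def hcInv (H : Subgroup G) : Submodule (ZMod p) V where
  carrier := {v | ∀ σ ∈ H, σ • v = v}
  add_mem' := fun {a b} ha hb σ hσ => by rw [smul_add, ha σ hσ, hb σ hσ]
  zero_mem' := fun σ _ => smul_zero σ
  smul_mem' := fun c v hv σ hσ => by rw [hc_smul_comm, hv σ hσ]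

omit hk in
theorem hcInv_stable (H : Subgroup G) (hconj : ∀ σ τ : G, σ ∈ H → τ⁻¹ * σ * τ ∈ H)
    (τ : G) (v : V) (hv : v ∈ hcInv p (V := V) H) : τ • v ∈ hcInv p (V := V) H := by
  intro σ hσ
  have h1 := hv (τ⁻¹ * σ * τ) (hconj σ τ hσ)
  have h2 : σ • τ • v = τ • ((τ⁻¹ * σ * τ) • v) := by
    rw [← mul_smul, ← mul_smul]
    congr 1
    group
  rw [h2, h1]

/-- **Steps E, F.** The action of `G` on `V` is commutative. -/
theorem hc_comm_on_V [Finite V] (hU : Module.finrank k U = 2) (hrel : HcRel r V)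
    (hirr : ∀ N : Submodule (ZMod p) V, (∀ σ : G, ∀ x ∈ N, σ • x ∈ N) → N = ⊥ ∨ N = ⊤)
    (hcard : 1 < Nat.card V)
    (w₀ : U) (hw₀ : w₀ ≠ 0) (heig : ∀ σ : G, ∃ χ : k, r σ w₀ = χ • w₀)
    (σ τ : G) (v : V) : σ • τ • v = τ • σ • v := by
  obtain ⟨v₀, hv₀, hfix⟩ := hcH_exists_fixed p r hU hrel hcard w₀ hw₀ heig
  have htop : hcInv p (V := V) (hcH r w₀ hw₀ heig) = ⊤ := by
    rcases hirr (hcInv p (V := V) (hcH r w₀ hw₀ heig)) (fun τ x hx =>
      hcInv_stable p (hcH r w₀ hw₀ heig) (fun σ τ hσ => hcH_conj r w₀ hw₀ heig σ τ hσ) τ x hx)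
      with h | h
    · exfalso
      have : v₀ ∈ hcInv p (V := V) (hcH r w₀ hw₀ heig) := hfix
      rw [h, Submodule.mem_bot] at this
      exact hv₀ this
    · exact h
  have htriv : ∀ ρ ∈ hcH r w₀ hw₀ heig, ∀ x : V, ρ • x = x := by
    intro ρ hρ x
    have : x ∈ hcInv p (V := V) (hcH r w₀ hw₀ heig) := by rw [htop]; exact Submodule.mem_top
    exact this ρ hρ
  have h := htriv _ (hcH_comm r w₀ hw₀ heig σ τ) (τ • σ • v)
  rw [← mul_smul, ← mul_smul] at h
  have he : σ * τ * σ⁻¹ * τ⁻¹ * τ * σ = σ * τ := by group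
  rw [he, mul_smul] at h
  exact h

omit hk in
/-- **Step G.** Some element is not a scalar on `V`. -/
theorem hc_exists_nonscalar [Finite V]
    (hirr : ∀ N : Submodule (ZMod p) V, (∀ σ : G, ∀ x ∈ N, σ • x ∈ N) → N = ⊥ ∨ N = ⊤)
    (hcard : p < Nat.card V) :
    ∃ σ₀ : G, ¬ ∃ s : ZMod p, ∀ v : V, σ₀ • v = s • v := by
  by_contra hcon
  push Not at hcon
  have h1 : 1 < Nat.card V := lt_trans hp.out.one_lt hcard
  have : Nontrivial V := (Finite.one_lt_card_iff_nontrivial).mp h1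
  obtain ⟨v₀, hv₀⟩ := exists_ne (0 : V)
  have hstab : ∀ σ : G, ∀ x ∈ Submodule.span (ZMod p) {v₀}, σ • x ∈ Submodule.span (ZMod p) {v₀} := by
    intro σ x hx
    obtain ⟨s, hs⟩ := hcon σ
    rw [hs x]
    exact Submodule.smul_mem _ s hx
  have htop : Submodule.span (ZMod p) {v₀} = ⊤ := by
    rcases hirr _ hstab with h | h
    · exfalso
      have : v₀ ∈ Submodule.span (ZMod p) {v₀} := Submodule.mem_span_singleton_self v₀
      rw [h, Submodule.mem_bot] at this
      exact hv₀ this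
    · exact h
  have hsurj : Function.Surjective (fun c : ZMod p => c • v₀) := by
    intro v
    have : v ∈ Submodule.span (ZMod p) {v₀} := by rw [htop]; exact Submodule.mem_top
    exact Submodule.mem_span_singleton.mp this
  have hle := Nat.card_le_card_of_surjective _ hsurj
  rw [Nat.card_zmod] at hle
  omega

omit hk in
/-- **Step H.** A commuting involution is `±1` on `V`. -/
theorem hc_involution_scalar
    (hirr : ∀ N : Submodule (ZMod p) V, (∀ σ : G, ∀ x ∈ N, σ • x ∈ N) → N = ⊥ ∨ N = ⊤)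
    (hcomm : ∀ (σ τ : G) (v : V), σ • τ • v = τ • σ • v) (c : G) (hcc : c * c = 1) :
    (∀ v : V, c • v = v) ∨ (∀ v : V, c • v = -v) := by
  set N : Submodule (ZMod p) V :=
    { carrier := {v | c • v = v}
      add_mem' := fun {a b} ha hb => by
        show c • (a + b) = a + b
        rw [smul_add, ha, hb]
      zero_mem' := smul_zero c
      smul_mem' := fun s v hv => by
        show c • (s • v) = s • v
        rw [hc_smul_comm, hv] } with hN
  have hmem : ∀ v : V, v ∈ N ↔ c • v = v := fun v => Iff.rfl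
  have hstab : ∀ σ : G, ∀ x ∈ N, σ • x ∈ N := by
    intro σ x hx
    rw [hmem] at hx ⊢
    rw [hcomm c σ x, hx]
  rcases hirr N hstab with h | h
  · right
    intro v
    have : c • v + v ∈ N := by
      rw [hmem, smul_add, ← mul_smul, hcc, one_smul, add_comm]
    rw [h, Submodule.mem_bot] at this
    exact eq_neg_of_add_eq_zero_left this
  · left
    intro v
    have : v ∈ N := by rw [h]; exact Submodule.mem_top
    exact this

omit hk in
/-- Two integer relations `A σ₀ + D = 0` on `V` for a non-scalar `σ₀` force `D ≡ 0`. -/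
theorem hc_const_of_nonscalar [Nontrivial V] (σ₀ : G)
    (hns : ¬ ∃ s : ZMod p, ∀ v : V, σ₀ • v = s • v) (A D : ℤ)
    (h : ∀ v : V, A • σ₀ • v + D • v = 0) : (D : ZMod p) = 0 := by
  have hA : (A : ZMod p) = 0 := by
    by_contra hA
    apply hns
    refine ⟨-((A : ZMod p)⁻¹ * (D : ZMod p)), fun v => ?_⟩
    have h1 := h v
    rw [← Int.cast_smul_eq_zsmul (ZMod p) A, ← Int.cast_smul_eq_zsmul (ZMod p) D] at h1
    have h2 : (A : ZMod p) • σ₀ • v = -((D : ZMod p) • v) := eq_neg_of_add_eq_zero_left h1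
    have h3 : σ₀ • v = (A : ZMod p)⁻¹ • ((A : ZMod p) • σ₀ • v) := by
      rw [smul_smul, inv_mul_cancel₀ hA, one_smul]
    rw [h3, h2, neg_smul, smul_neg, smul_smul]
  obtain ⟨v₀, hv₀⟩ := exists_ne (0 : V)
  have h1 := h v₀
  rw [← Int.cast_smul_eq_zsmul (ZMod p) A, ← Int.cast_smul_eq_zsmul (ZMod p) D, hA, zero_smul,
    zero_add] at h1
  rcases smul_eq_zero.mp h1 with h0 | h0
  · exact h0
  · exact absurd h0 hv₀

/-- **Main theorem of the core.**  Under the relation hypothesis, an irreducible `V` with more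
than `p` elements and an involution of determinant `-1`, there is no stable line. -/
theorem hc_no_stable_line [Finite V] (hp2 : p ≠ 2) (hU : Module.finrank k U = 2)
    (hrel : HcRel r V)
    (hirr : ∀ N : Submodule (ZMod p) V, (∀ σ : G, ∀ x ∈ N, σ • x ∈ N) → N = ⊥ ∨ N = ⊤)
    (hcard : p < Nat.card V) (c : G) (hcc : c * c = 1) (hdetc : LinearMap.det (r c) = -1)
    (w₀ : U) (hw₀ : w₀ ≠ 0) (heig : ∀ σ : G, ∃ χ : k, r σ w₀ = χ • w₀) : False := by
  have h1 : 1 < Nat.card V := lt_trans hp.out.one_lt hcard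
  have : Nontrivial V := (Finite.one_lt_card_iff_nontrivial).mp h1
  have hcomm := hc_comm_on_V p r hU hrel hirr h1 w₀ hw₀ heig
  obtain ⟨σ₀, hns⟩ := hc_exists_nonscalar p (G := G) (V := V) hirr hcard
  obtain ⟨a₀, d₀, hcp₀, hV₀⟩ := hrel σ₀
  obtain ⟨a₁, d₁, hcp₁, hV₁⟩ := hrel (c * σ₀)
  have hdet₀ : LinearMap.det (r σ₀) = (d₀ : k) :=
    hc_det_of_charpoly hU (r σ₀) (a₀ : k) (d₀ : k) hcp₀
  have hdet₁ : LinearMap.det (r (c * σ₀)) = (d₁ : k) :=
    hc_det_of_charpoly hU (r (c * σ₀)) (a₁ : k) (d₁ : k) hcp₁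
  have hd : (d₁ : k) = -(d₀ : k) := by
    rw [← hdet₁, ← hdet₀, map_mul, map_mul, hdetc, neg_one_mul]
  -- the relation of `c σ₀` on `V`, in terms of `σ₀`
  have hD : ((d₁ - d₀ : ℤ) : ZMod p) = 0 := by
    rcases hc_involution_scalar p hirr hcomm c hcc with hc | hc
    · -- `c = 1` on `V`
      apply hc_const_of_nonscalar p σ₀ hns (a₀ - a₁) (d₁ - d₀)
      intro v
      have e1 := hV₀ v
      have e2 := hV₁ v
      have hcv : ∀ x : V, (c * σ₀) • x = σ₀ • x := fun x => by rw [mul_smul, hc]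
      rw [hcv, hcv] at e2
      have : (a₀ - a₁) • σ₀ • v + (d₁ - d₀) • v =
          (σ₀ • σ₀ • v - a₁ • σ₀ • v + d₁ • v) - (σ₀ • σ₀ • v - a₀ • σ₀ • v + d₀ • v) := by
        rw [sub_smul, sub_smul]; abel
      rw [this, e1, e2, sub_zero]
    · -- `c = -1` on `V`
      apply hc_const_of_nonscalar p σ₀ hns (a₀ + a₁) (d₁ - d₀)
      intro v
      have e1 := hV₀ v
      have e2 := hV₁ v
      have hcv : ∀ x : V, (c * σ₀) • x = -(σ₀ • x) := fun x => by rw [mul_smul, hc]
      rw [hcv, hcv, smul_neg, neg_neg, smul_neg] at e2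
      have : (a₀ + a₁) • σ₀ • v + (d₁ - d₀) • v =
          (σ₀ • σ₀ • v - -(a₁ • σ₀ • v) + d₁ • v) - (σ₀ • σ₀ • v - a₀ • σ₀ • v + d₀ • v) := by
        rw [add_smul, sub_smul]; abel
      rw [this, e1, e2, sub_zero]
  have hDk : ((d₁ - d₀ : ℤ) : k) = 0 := by
    have : ((d₁ - d₀ : ℤ) : ZMod p) = ((0 : ℤ) : ZMod p) := by rw [hD]; simp
    have h2 := (ZMod.intCast_eq_intCast_iff _ _ p).mp this
    have h3 := (CharP.intCast_eq_intCast k p).mpr h2
    simpa using h3
  have h2k : (2 : k) ≠ 0 := by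
    intro h
    have h2' : ((2 : ℕ) : k) = 0 := by exact_mod_cast h
    rw [CharP.cast_eq_zero_iff k p] at h2'
    have := (Nat.prime_dvd_prime_iff_eq hp.out Nat.prime_two).mp h2'
    exact hp2 this
  have hd0 : (d₀ : k) = 0 := by
    have h4 : (d₁ : k) - (d₀ : k) = 0 := by
      have := hDk
      push_cast at this
      exact this
    rw [hd] at h4
    have h5 : (2 : k) * (d₀ : k) = 0 := by linear_combination -h4
    rcases mul_eq_zero.mp h5 with h | h
    · exact absurd h h2k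
    · exact h
  exact hc_det_ne_zero r σ₀ (hdet₀.trans hd0)

/-- **Irreducibility form.**  Under the hypotheses of `hc_no_stable_line`, every `G`-stable
subspace of the two-dimensional space `U` is `⊥` or `⊤`. -/
theorem hc_irreducible [Finite V] (hp2 : p ≠ 2) (hU : Module.finrank k U = 2)
    (hrel : HcRel r V)
    (hirr : ∀ N : Submodule (ZMod p) V, (∀ σ : G, ∀ x ∈ N, σ • x ∈ N) → N = ⊥ ∨ N = ⊤)
    (hcard : p < Nat.card V) (c : G) (hcc : c * c = 1) (hdetc : LinearMap.det (r c) = -1)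
    (W : Submodule k U) (hW : ∀ σ : G, ∀ x ∈ W, r σ x ∈ W) : W = ⊥ ∨ W = ⊤ := by
  by_contra hcon
  push Not at hcon
  obtain ⟨hbot, htop⟩ := hcon
  obtain ⟨w₀, hw₀W, hw₀⟩ := Submodule.exists_mem_ne_zero_of_ne_bot hbot
  have hlt : Module.finrank k W < 2 := by
    rw [← hU]
    exact Submodule.finrank_lt htop
  have hpos : 0 < Module.finrank k W := by
    rw [Module.finrank_pos_iff_exists_ne_zero]
    exact ⟨⟨w₀, hw₀W⟩, fun h => hw₀ (congrArg Subtype.val h)⟩
  have hone : Module.finrank k W = 1 := by omega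
  have hspan : ∀ w : W, ∃ χ : k, χ • (⟨w₀, hw₀W⟩ : W) = w :=
    (finrank_eq_one_iff_of_nonzero' (⟨w₀, hw₀W⟩ : W)
      (fun h => hw₀ (congrArg Subtype.val h))).mp hone
  have heig : ∀ σ : G, ∃ χ : k, r σ w₀ = χ • w₀ := by
    intro σ
    obtain ⟨χ, hχ⟩ := hspan ⟨r σ w₀, hW σ w₀ hw₀W⟩
    exact ⟨χ, (congrArg Subtype.val hχ).symm⟩
  exact hc_no_stable_line p r hp2 hU hrel hirr hcard c hcc hdetc w₀ hw₀ heig

end Core

end Fermat.Agent.H88.S58
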