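import Mathlib
import Fermat.Prelude.Def_GaloisRep_ComplexConjugation
import Fermat.Agent.H51.S58.Interfaces
import Fermat.Agent.H88.S58.HresCore

/-!
# S58 glue, row 1107 (S58-RES): the residual hypothesis of S36

`residual (hCmp) (hCard) (hInv) : ResidualStatement`: for a `p`-adic representation `ρ` with the
Frobenius characteristic polynomials of `W` outside a finite set, the reduction of `ρ` is
absolutely irreducible and odd as soon as `E[p]` is irreducible.

The proof uses the comparison statement only at level `k = 1` and the abstract core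
`Fermat.Agent.H88.S58.hc_irreducible`.
-/

set_option autoImplicit false
set_option maxSynthPendingDepth 3

open Polynomial WeierstrassCurve WeierstrassCurve.Affine
open scoped TensorProduct

namespace Fermat.Agent.H88.S58

open Fermat.Agent.H51.S58

/-- The characteristic polynomial of an endomorphism of a free module of rank two. -/
theorem res_charpoly_eq {O : Type*} [CommRing O] [Nontrivial O] {V : Type*} [AddCommGroup V]
    [Module O V] [Module.Free O V] [Module.Finite O V] (hV : Module.finrank O V = 2)
    (f : Module.End O V) :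
    LinearMap.charpoly f = X ^ 2 - C (LinearMap.trace O V f) * X + C (LinearMap.det f) := by
  classical
  have b := Module.finBasisOfFinrankEq O V hV
  rw [← LinearMap.charpoly_toMatrix f b, LinearMap.trace_eq_matrix_trace O b f,
    ← LinearMap.det_toMatrix b f, Matrix.charpoly_fin_two]

/-- Complex conjugation is not the identity. -/
theorem res_complexConjugation_ne_one : complexConjugation ≠ 1 := by
  intro h
  obtain ⟨i, hi⟩ := IsAlgClosed.exists_pow_nat_eq (-1 : AlgebraicClosure ℚ) (n := 2) (by norm_num)
  have h1 := complexEmbedding_complexConjugation i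
  rw [h] at h1
  have h2 : starRingEnd ℂ (complexEmbedding i) = complexEmbedding i := h1.symm
  obtain ⟨x, hx⟩ := Complex.conj_eq_iff_real.mp h2
  have h3 : (complexEmbedding i) ^ 2 = -1 := by
    rw [← map_pow, hi, map_neg, map_one]
  rw [hx] at h3
  have h4 : (x : ℝ) ^ 2 = -1 := by exact_mod_cast h3
  nlinarith [sq_nonneg x]

section

variable {O : Type} [CommRing O] [IsDomain O] [IsDiscreteValuationRing O]

/-- An element of `span {p}` dies in the residue field when `p` lies in the maximal ideal. -/
theorem res_residue_eq_of_sub_mem {p : ℕ} (hpO : (p : O) ∈ IsLocalRing.maximalIdeal O)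
    {x y : O} (h : x - y ∈ Ideal.span {((p ^ 1 : ℕ) : O)}) :
    IsLocalRing.residue O x = IsLocalRing.residue O y := by
  rw [← sub_eq_zero, ← map_sub, IsLocalRing.residue_eq_zero_iff]
  have hle : Ideal.span {((p ^ 1 : ℕ) : O)} ≤ IsLocalRing.maximalIdeal O := by
    rw [Ideal.span_singleton_le_iff_mem, pow_one]
    exact hpO
  exact hle h

end

/-- **Row 1107 (S58-RES).** -/
theorem residual (hCmp : CompareStatement) (hCard : TorsionCardStatement)
    (hInv : InvolutionStatement) : ResidualStatement := by
  intro W hΔ p _ hp2 hirr O _ _ _ _ hpO ρ S hF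
  classical
  have hp : p.Prime := Fact.out
  -- the residue field and its characteristic
  set κ := IsLocalRing.ResidueField O with hκ
  have hpκ : ((p : ℕ) : κ) = 0 := by
    have : IsLocalRing.residue O (p : O) = 0 := (IsLocalRing.residue_eq_zero_iff _).mpr hpO
    simpa using this
  have hcharκ : CharP κ p := (CharP.charP_iff_prime_eq_zero hp).mpr hpκ
  -- a primitive `p`-th root of unity
  have hpne : NeZero ((p : ℕ) : AlgebraicClosure ℚ) := ⟨by exact_mod_cast hp.ne_zero⟩
  obtain ⟨ζ, hζ⟩ := HasEnoughRootsOfUnity.exists_primitiveRoot (AlgebraicClosure ℚ) p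
  -- the data of the comparison statement at level one
  have hcmp := fun g : GQ => hCmp W hΔ p hp2 O hpO ρ S hF g 1
  -- determinant of the residual representation
  have hdetres : ∀ g : GQ, LinearMap.det (ρ.residual.ρ g) =
      IsLocalRing.residue O (LinearMap.det (ρ.ρ g)) := by
    intro g
    show LinearMap.det ((ρ.ρ g).baseChange κ) = _
    rw [LinearMap.det_baseChange]
    rfl
  -- oddness
  have hodd : ρ.residual.IsOdd := by
    intro c hcc hc1
    obtain ⟨t, d, -, hd, hζd, -⟩ := hcmp c
    have h1 : c ζ = ζ ^ d := hζd ζ (by rw [pow_one]; exact hζ.pow_eq_one)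
    have h2 : c ζ = ζ⁻¹ := hInv c hcc hc1 p hp hp2 ζ hζ.pow_eq_one
    have h3 : ζ ^ (d + 1) = 1 := by
      rw [pow_succ, ← h1, h2, inv_mul_cancel₀ (hζ.ne_zero hp.ne_zero)]
    have h4 : p ∣ d + 1 := hζ.dvd_of_pow_eq_one _ h3
    have h5 : ((d + 1 : ℕ) : κ) = 0 := (CharP.cast_eq_zero_iff κ p _).mpr h4
    have h6 : ((d : ℕ) : κ) = -1 := by
      push_cast at h5
      exact eq_neg_of_add_eq_zero_left h5
    rw [hdetres, res_residue_eq_of_sub_mem hpO hd, map_natCast, h6]
  refine ⟨?_, hodd⟩
  -- absolute irreducibility
  set kbar := AlgebraicClosure κ with hkbar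
  have hcharkbar : CharP kbar p := charP_of_injective_algebraMap (algebraMap κ kbar).injective p
  -- the torsion module
  have hcardV : Nat.card (Submodule.torsionBy ℤ (EPt W) p) = p ^ 2 := hCard W hΔ p hp hp2
  have hfinV : Finite (Submodule.torsionBy ℤ (EPt W) p) :=
    Nat.finite_of_card_ne_zero (by rw [hcardV]; exact pow_ne_zero 2 hp.ne_zero)
  have hlt : p < Nat.card (Submodule.torsionBy ℤ (EPt W) p) := by
    rw [hcardV]
    have := hp.one_lt
    nlinarith
  -- the relation hypothesis
  have hrel : HcRel (ρ.residual.baseChange kbar).ρ (Submodule.torsionBy ℤ (EPt W) p) := by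
    intro g
    obtain ⟨t, d, ht, hd, -, hP⟩ := hcmp g
    refine ⟨t, (d : ℤ), ?_, ?_⟩
    · show LinearMap.charpoly ((ρ.residual.ρ g).baseChange kbar) = _
      rw [LinearMap.charpoly_baseChange]
      have h1 : LinearMap.charpoly (ρ.residual.ρ g) =
          (LinearMap.charpoly (ρ.ρ g)).map (IsLocalRing.residue O) := by
        show LinearMap.charpoly ((ρ.ρ g).baseChange κ) = _
        rw [LinearMap.charpoly_baseChange]
        rfl
      rw [h1, res_charpoly_eq ρ.finrank_eq (ρ.ρ g)]
      have htk : algebraMap κ kbar (IsLocalRing.residue O (LinearMap.trace O ρ.V (ρ.ρ g))) =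
          ((t : ℤ) : kbar) := by
        rw [res_residue_eq_of_sub_mem hpO ht, map_intCast, map_intCast]
      have hdk : algebraMap κ kbar (IsLocalRing.residue O (LinearMap.det (ρ.ρ g))) =
          (((d : ℕ) : ℤ) : kbar) := by
        rw [res_residue_eq_of_sub_mem hpO hd, map_natCast, map_natCast, Int.cast_natCast]
      simp only [Polynomial.map_add, Polynomial.map_sub, Polynomial.map_mul, Polynomial.map_pow,
        Polynomial.map_X, Polynomial.map_C]
      rw [htk, hdk]
    · intro v
      apply Subtype.ext
      have h1 := hP (v : EPt W) (by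
        rw [pow_one]
        have := v.2
        rw [Submodule.mem_torsionBy_iff] at this
        rw [← natCast_zsmul]
        exact this)
      exact h1
  -- irreducibility of `E[p]`
  have hirrV : ∀ N : Submodule (ZMod p) (Submodule.torsionBy ℤ (EPt W) p),
      (∀ σ : GQ, ∀ x ∈ N, σ • x ∈ N) → N = ⊥ ∨ N = ⊤ := fun N hN => hirr.2 N hN
  -- an involution of determinant `-1`
  have hdetc : LinearMap.det ((ρ.residual.baseChange kbar).ρ complexConjugation) = -1 := by
    show LinearMap.det ((ρ.residual.ρ complexConjugation).baseChange kbar) = -1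
    rw [LinearMap.det_baseChange, hodd complexConjugation complexConjugation_mul_self
      res_complexConjugation_ne_one]
    simp
  intro W' hW'
  exact hc_irreducible p (ρ.residual.baseChange kbar).ρ hp2 (ρ.residual.baseChange kbar).finrank_eq
    hrel hirrV hlt complexConjugation complexConjugation_mul_self hdetc W' hW'

end Fermat.Agent.H88.S58
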